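import Mathlib

/-!
# Sperner's lemma on the triangulation of Kuhn

A simplex of the triangulation of the grid `{0, …, N} ^ n` is a cube `q` and a permutation `ρ`
ranking the coordinates; its vertex `a` is `q` plus the indicator of the coordinates of rank `< a`.
-/

set_option autoImplicit false

noncomputable section

namespace FA.SpernerLemma

open Finset
open scoped Classical

variable {n N : ℕ}

/-- Simplices of Kuhn's triangulation. -/
abbrev Cell (n N : ℕ) := (Fin n → Fin N) × Equiv.Perm (Fin n)

/-- The vertices of a simplex. -/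
def vertex (s : Cell n N) (a : Fin (n + 1)) : Fin n → ℕ :=
  fun i => (s.1 i).val + if (s.2 i).val < a.val then 1 else 0

/-- The labels of a simplex. -/
def labels (r : (Fin n → ℕ) → ℕ) (s : Cell n N) : Finset ℕ := univ.image fun a => r (vertex s a)

/-- The boundary conditions on a labelling. -/
structure Admissible (n N : ℕ) (r : (Fin n → ℕ) → ℕ) : Prop where
  le_dim : ∀ x, (∀ i, x i ≤ N) → r x ≤ n
  le_of_zero : ∀ x i, (∀ k, x k ≤ N) → x i = 0 → r x ≤ i.val
  ne_of_top : ∀ x i, (∀ k, x k ≤ N) → x i = N → r x ≠ i.val

lemma vertex_le (s : Cell n N) (a : Fin (n + 1)) (i : Fin n) : vertex s a i ≤ N := by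
  have := (s.1 i).isLt
  unfold vertex
  split_ifs <;> omega

/-- The facets labelled `0, …, n - 1` of one simplex: their number is odd exactly for rainbows. -/
lemma odd_doors_iff {k : ℕ} (f : Fin (k + 1) → ℕ) (hf : ∀ a, f a ≤ k) :
    Odd (univ.filter fun j : Fin (k + 1) => (univ.erase j).image f = range k).card ↔
      univ.image f = range (k + 1) := by
  by_cases h1 : univ.image f = range (k + 1)
  · refine iff_of_true ?_ h1
    have hinj : Set.InjOn f (univ : Finset (Fin (k + 1))) :=
      card_image_iff.1 (by rw [h1]; simp)
    obtain ⟨j₀, -, hj₀⟩ := mem_image.1 (show k ∈ univ.image f by rw [h1]; simp)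
    suffices (univ.filter fun j : Fin (k + 1) => (univ.erase j).image f = range k) = {j₀} by
      rw [this]; simp
    ext j
    simp only [mem_filter, mem_univ, true_and, mem_singleton]
    constructor
    · intro hj
      by_contra hne
      have : k ∈ range k := hj ▸ mem_image.2 ⟨j₀, mem_erase.2 ⟨fun e => hne e.symm, mem_univ _⟩, hj₀⟩
      simp at this
    · rintro rfl
      rw [image_erase (fun a b => hinj (mem_univ a) (mem_univ b)), h1, hj₀]
      ext x
      simp
      omega
  · refine iff_of_false ?_ h1
    rw [Nat.not_odd_iff_even]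
    by_cases h2 : univ.image f = range k
    · obtain ⟨a, -, b, -, hab, hfab⟩ := exists_ne_map_eq_of_card_lt_of_maps_to
        (s := (univ : Finset (Fin (k + 1)))) (t := range k) (by simp)
        (f := f) (fun c _ => by simp only [mem_coe, ← h2]; exact mem_image_of_mem f (mem_univ c))
      have hdel : ∀ j c, c ≠ j → f c = f j → (univ.erase j).image f = range k := by
        intro j c hc hfc
        rw [← h2]
        refine Subset.antisymm (image_subset_image (erase_subset _ _)) fun x hx => ?_
        obtain ⟨y, -, rfl⟩ := mem_image.1 hx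
        by_cases hy : y = j
        · exact mem_image.2 ⟨c, mem_erase.2 ⟨hc, mem_univ _⟩, hy ▸ hfc⟩
        · exact mem_image.2 ⟨y, mem_erase.2 ⟨hy, mem_univ _⟩, rfl⟩
      have hinj : Set.InjOn f (univ.erase a : Finset (Fin (k + 1))) :=
        card_image_iff.1 (by rw [hdel a b hab.symm hfab.symm]; simp)
      suffices (univ.filter fun j : Fin (k + 1) => (univ.erase j).image f = range k) = {a, b} by
        rw [this, card_pair hab]; exact even_two
      ext j
      simp only [mem_filter, mem_univ, true_and, mem_insert, mem_singleton]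
      refine ⟨fun hj => ?_, ?_⟩
      · by_contra hne
        push Not at hne
        obtain ⟨c, hc, hfc⟩ := mem_image.1
          (show f j ∈ (univ.erase j).image f by rw [hj, ← h2]; exact mem_image_of_mem f (mem_univ j))
        have hja : j ∈ (univ.erase a : Finset (Fin (k + 1))) := mem_erase.2 ⟨hne.1, mem_univ _⟩
        by_cases hca : c = a
        · subst hca
          exact hne.2 (hinj hja (mem_erase.2 ⟨hab.symm, mem_univ _⟩) (hfc.symm.trans hfab))
        · exact (mem_erase.1 hc).1 (hinj (mem_erase.2 ⟨hca, mem_univ _⟩) hja hfc)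
      · rintro (rfl | rfl)
        · exact hdel _ b hab.symm hfab.symm
        · exact hdel _ a hab hfab
    · suffices (univ.filter fun j : Fin (k + 1) => (univ.erase j).image f = range k) = ∅ by
        rw [this]; simp
      rw [filter_eq_empty_iff]
      intro j _ hj
      have hins : univ.image f = insert (f j) (range k) := by
        rw [← hj, ← image_insert, insert_erase (mem_univ j)]
      rcases (hf j).eq_or_lt with h | h
      · exact h1 (by rw [hins, h, range_add_one])
      · exact h2 (by rw [hins, insert_eq_self.2 (mem_range.2 h)])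

/-- A simplex and one of its facets. -/
abbrev Door (n N : ℕ) := Cell n N × Fin (n + 1)

/-- The facets labelled `0, …, n - 1`. -/
def doors (N : ℕ) (r : (Fin n → ℕ) → ℕ) : Finset (Door n N) :=
  univ.filter fun p => (univ.erase p.2).image (fun a => r (vertex p.1 a)) = range n

lemma odd_card_iff {α : Type*} (s : Finset α) (f : α → ℕ) :
    Odd (∑ a ∈ s, f a) ↔ Odd (s.filter fun a => Odd (f a)).card :=
  Finset.odd_sum_iff_odd_card_odd f

lemma rainbow_parity {r : (Fin n → ℕ) → ℕ} (hr : Admissible n N r) :
    Odd (univ.filter fun s : Cell n N => labels r s = range (n + 1)).card ↔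
      Odd (doors N r).card := by
  rw [card_eq_sum_card_fiberwise (f := Prod.fst) (t := (univ : Finset (Cell n N)))
    (fun p _ => mem_univ p.1), odd_card_iff]
  refine Iff.of_eq (congrArg (fun t : Finset (Cell n N) => Odd t.card) ?_)
  ext s
  simp only [mem_filter, mem_univ, true_and]
  have hiff := odd_doors_iff (fun a => r (vertex s a)) fun a =>
    hr.le_dim _ fun i => vertex_le s a i
  rw [show labels r s = univ.image (fun a => r (vertex s a)) from rfl, ← hiff]
  refine Iff.of_eq (congrArg Odd ?_)
  refine card_bij (fun j _ => (s, j)) (fun j hj => ?_) (fun a _ b _ h => (Prod.ext_iff.1 h).2)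
    fun p hp => ?_
  · simpa [doors] using hj
  · obtain ⟨hp1, rfl⟩ := mem_filter.1 hp
    exact ⟨p.2, by simpa [doors] using hp1, rfl⟩

section Step

variable {m : ℕ}

/-- The coordinate of rank zero. -/
def firstCoord (s : Cell (m + 1) N) : Fin (m + 1) := s.2.symm 0

/-- The coordinate of largest rank. -/
def lastCoord (s : Cell (m + 1) N) : Fin (m + 1) := s.2.symm (Fin.last m)

/-- Moving to the next cube through the facet opposite to vertex `0`. -/
def upCell (s : Cell (m + 1) N) : Cell (m + 1) N :=
  (fun i => if h : i = firstCoord s ∧ (s.1 i).val + 1 < N then ⟨(s.1 i).val + 1, h.2⟩ else s.1 i,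
    s.2.trans (finRotate (m + 1)).symm)

/-- Moving to the previous cube through the facet opposite to the last vertex. -/
def downCell (s : Cell (m + 1) N) : Cell (m + 1) N :=
  (fun i => if i = lastCoord s then ⟨(s.1 i).val - 1, by have := (s.1 i).isLt; omega⟩ else s.1 i,
    s.2.trans (finRotate (m + 1)))

/-- The simplex sharing an interior facet. -/
def flip (p : Door (m + 1) N) : Door (m + 1) N :=
  if p.2 = 0 then (upCell p.1, Fin.last (m + 1))
  else if p.2 = Fin.last (m + 1) then (downCell p.1, 0)
  else ((p.1.1, p.1.2.trans (Equiv.swap ⟨p.2.val - 1, by have := p.2.isLt; omega⟩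
    ⟨min p.2.val m, by omega⟩)), p.2)

/-- The facets on the side of the grid. -/
def IsSide (p : Door (m + 1) N) : Prop :=
  (p.2 = 0 ∧ (p.1.1 (firstCoord p.1)).val + 1 = N) ∨
    (p.2 = Fin.last (m + 1) ∧ (p.1.1 (lastCoord p.1)).val = 0)

lemma rot_symm_val (x : Fin (m + 1)) :
    ((finRotate (m + 1)).symm x).val = if x.val = 0 then m else x.val - 1 := by
  obtain ⟨y, rfl⟩ := (finRotate (m + 1)).surjective x
  rw [Equiv.symm_apply_apply]
  by_cases hy : y = Fin.last m
  · subst hy
    simp
  · have : y.val < m := Fin.val_lt_last hy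
    rw [coe_finRotate_of_ne_last hy]
    simp

lemma rot_val (x : Fin (m + 1)) :
    (finRotate (m + 1) x).val = if x.val = m then 0 else x.val + 1 := by
  by_cases hx : x = Fin.last m
  · subst hx
    simp
  · have : x.val < m := Fin.val_lt_last hx
    rw [coe_finRotate_of_ne_last hx, if_neg (by omega)]

/-- The vertices of the facet opposite to `0` reappear one cube higher. -/
lemma vertex_upCell {s : Cell (m + 1) N} (h : (s.1 (firstCoord s)).val + 1 < N)
    {a b : Fin (m + 1 + 1)} (hab : a.val = b.val + 1) :
    vertex (upCell s) b = vertex s a := by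
  have ha := a.isLt
  funext i
  simp only [vertex, upCell, Equiv.trans_apply, rot_symm_val]
  by_cases hi : i = firstCoord s
  · subst hi
    have h0 : (s.2 (firstCoord s)).val = 0 := by simp [firstCoord]
    rw [dif_pos ⟨rfl, h⟩, h0]
    simp only [if_true]
    split_ifs <;> omega
  · have h0 : (s.2 i).val ≠ 0 := fun e => hi (by
      rw [firstCoord, Equiv.eq_symm_apply]; exact Fin.ext (by simpa using e))
    rw [dif_neg (fun e => hi e.1), if_neg h0]
    split_ifs <;> omega

lemma vertex_downCell {s : Cell (m + 1) N} (h : (s.1 (lastCoord s)).val ≠ 0)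
    {a b : Fin (m + 1 + 1)} (hab : b.val = a.val + 1) :
    vertex (downCell s) b = vertex s a := by
  have hb := b.isLt
  funext i
  simp only [vertex, downCell, Equiv.trans_apply, rot_val]
  by_cases hi : i = lastCoord s
  · subst hi
    have h0 : (s.2 (lastCoord s)).val = m := by simp [lastCoord]
    rw [if_pos rfl, h0]
    simp only [if_true]
    split_ifs <;> omega
  · have h0 : (s.2 i).val ≠ m := fun e => hi (by
      rw [lastCoord, Equiv.eq_symm_apply]; exact Fin.ext (by simpa using e))
    rw [if_neg hi, if_neg h0]
    split_ifs <;> omega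

lemma flip_spec {r : (Fin (m + 1) → ℕ) → ℕ} {p : Door (m + 1) N} (hp : p ∈ doors N r)
    (hs : ¬ IsSide p) :
    (flip p ∈ doors N r ∧ ¬ IsSide (flip p)) ∧ flip p ≠ p ∧ flip (flip p) = p := by
  obtain ⟨⟨q, ρ⟩, j⟩ := p
  simp only [doors, mem_filter, mem_univ, true_and] at hp ⊢
  simp only [IsSide, not_or, not_and] at hs
  by_cases hj0 : j = 0
  · subst hj0
    have hlt : (q (firstCoord (q, ρ))).val + 1 < N := by
      have := hs.1 rfl
      have := (q (firstCoord (q, ρ))).isLt
      omega
    have hflip : flip ((q, ρ), (0 : Fin (m + 1 + 1))) = (upCell (q, ρ), Fin.last (m + 1)) := if_pos rfl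
    have hlast : lastCoord (upCell (q, ρ)) = firstCoord (q, ρ) := by
      simp only [lastCoord, firstCoord, upCell, Equiv.symm_trans_apply, Equiv.symm_symm,
        finRotate_last]
    rw [hflip]
    refine ⟨⟨?_, ?_⟩, fun e => Fin.last_pos.ne' (Prod.ext_iff.1 e).2, ?_⟩
    · rw [← hp]
      ext x
      simp only [mem_image, mem_erase, mem_univ, and_true]
      constructor
      · rintro ⟨b, hb, rfl⟩
        have hb' : b.val < m + 1 := Fin.val_lt_last hb
        refine ⟨⟨b.val + 1, by omega⟩, fun e => ?_, ?_⟩
        · exact Nat.succ_ne_zero _ (congrArg Fin.val e)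
        · rw [vertex_upCell hlt (a := ⟨b.val + 1, by omega⟩) rfl]
      · rintro ⟨a, ha, rfl⟩
        have ha' : a.val ≠ 0 := fun e => ha (Fin.ext (by simpa using e))
        refine ⟨⟨a.val - 1, by omega⟩, fun e => ?_, ?_⟩
        · have := a.isLt
          simp [Fin.ext_iff] at e
          omega
        · rw [vertex_upCell hlt (a := a) (by dsimp only; omega)]
    · rintro (⟨h, -⟩ | ⟨-, h⟩)
      · exact Fin.last_pos.ne' h
      · simp only [hlast] at h
        simp [upCell, hlt] at h
    · rw [flip, if_neg Fin.last_pos.ne', if_pos rfl]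
      refine Prod.ext (Prod.ext (funext fun i => Fin.ext ?_) ?_) rfl
      · simp only [downCell, hlast]
        by_cases hi : i = firstCoord (q, ρ)
        · subst hi
          simp [upCell, hlt]
        · simp [upCell, hi]
      · simp only [downCell, upCell, Equiv.trans_assoc, Equiv.symm_trans_self, Equiv.trans_refl]
  by_cases hjl : j = Fin.last (m + 1)
  · subst hjl
    have hne : (q (lastCoord (q, ρ))).val ≠ 0 := hs.2 rfl
    have hflip : flip ((q, ρ), Fin.last (m + 1)) = (downCell (q, ρ), 0) := by
      rw [flip, if_neg Fin.last_pos.ne', if_pos rfl]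
    have hfirst : firstCoord (downCell (q, ρ)) = lastCoord (q, ρ) := by
      simp only [lastCoord, firstCoord, downCell, Equiv.symm_trans_apply]
      congr 1
    rw [hflip]
    refine ⟨⟨?_, ?_⟩, fun e => Fin.last_pos.ne (Prod.ext_iff.1 e).2, ?_⟩
    · rw [← hp]
      ext x
      simp only [mem_image, mem_erase, mem_univ, and_true]
      constructor
      · rintro ⟨b, hb, rfl⟩
        have hb' : b.val ≠ 0 := fun e => hb (Fin.ext (by simpa using e))
        refine ⟨⟨b.val - 1, by omega⟩, fun e => ?_, ?_⟩
        · have := b.isLt
          simp [Fin.ext_iff] at e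
          omega
        · rw [vertex_downCell hne (a := ⟨b.val - 1, by omega⟩) (b := b)
            (show b.val = b.val - 1 + 1 by omega)]
      · rintro ⟨a, ha, rfl⟩
        have ha' : a.val < m + 1 := Fin.val_lt_last ha
        refine ⟨⟨a.val + 1, by omega⟩, fun e => ?_, ?_⟩
        · exact Nat.succ_ne_zero _ (congrArg Fin.val e)
        · rw [vertex_downCell hne (b := ⟨a.val + 1, by omega⟩) rfl]
    · rintro (⟨-, h⟩ | ⟨h, -⟩)
      · simp only [hfirst] at h
        simp [downCell] at h
        have := (q (lastCoord (q, ρ))).isLt
        omega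
      · exact Fin.last_pos.ne h
    · rw [flip, if_pos rfl]
      refine Prod.ext (Prod.ext (funext fun i => Fin.ext ?_) ?_) rfl
      · simp only [upCell, hfirst]
        have hlt := (q (lastCoord (q, ρ))).isLt
        by_cases hi : i = lastCoord (q, ρ)
        · subst hi
          have : (q (lastCoord (q, ρ))).val - 1 + 1 < N := by omega
          simp [downCell, this]
          omega
        · simp [downCell, hi]
      · simp only [downCell, upCell, Equiv.trans_assoc, Equiv.self_trans_symm, Equiv.trans_refl]
  · have hj1 : 1 ≤ j.val := Nat.pos_of_ne_zero fun e => hj0 (Fin.ext (by simpa using e))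
    have hj2 : j.val ≤ m := Nat.lt_succ_iff.1 (Fin.val_lt_last hjl)
    let u : Fin (m + 1) := ⟨j.val - 1, by omega⟩
    let v : Fin (m + 1) := ⟨min j.val m, by omega⟩
    have hflip : flip ((q, ρ), j) = ((q, ρ.trans (Equiv.swap u v)), j) := by
      rw [flip, if_neg hj0, if_neg hjl]
    have hu : u.val = j.val - 1 := rfl
    have hv : v.val = j.val := Nat.min_eq_left hj2
    have hne : u ≠ v := fun e => by
      rw [Fin.ext_iff, hu, hv] at e
      omega
    rw [hflip]
    refine ⟨⟨?_, ?_⟩, ?_, ?_⟩
    · rw [← hp]
      refine image_congr fun a ha => congrArg r (funext fun i => ?_)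
      simp only [coe_erase, Set.mem_sdiff, Set.mem_singleton_iff] at ha
      have ha' : a.val ≠ j.val := fun e => ha.2 (Fin.ext e)
      simp only [vertex, Equiv.trans_apply]
      congr 1
      refine if_congr ?_ rfl rfl
      rw [Equiv.swap_apply_def]
      split_ifs with h1 h2
      · rw [h1, hu, hv]; omega
      · rw [h2, hu, hv]; omega
      · rfl
    · rintro (⟨h, -⟩ | ⟨h, -⟩)
      · exact hj0 h
      · exact hjl h
    · intro e
      have h := Equiv.congr_fun (Prod.ext_iff.1 (Prod.ext_iff.1 e).1).2 (ρ.symm u)
      simp at h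
      exact hne h.symm
    · rw [flip, if_neg hj0, if_neg hjl]
      refine Prod.ext (Prod.ext rfl ?_) rfl
      ext i
      simp [u, v]

/-- Extending a simplex of the bottom face. -/
def liftCell (hN : 0 < N) (s : Cell m N) : Cell (m + 1) N :=
  (Fin.snoc (α := fun _ => Fin N) s.1 ⟨0, hN⟩,
    Equiv.ofBijective (Fin.snoc (α := fun _ => Fin (m + 1)) (fun i => (s.2 i).castSucc) (Fin.last m))
      (Finite.injective_iff_bijective.1 (by
        intro a b h
        induction a using Fin.lastCases with
        | last =>
          induction b using Fin.lastCases with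
          | last => rfl
          | cast b =>
            simp only [Fin.snoc_last, Fin.snoc_castSucc] at h
            exact absurd h.symm (Fin.castSucc_lt_last _).ne
        | cast a =>
          induction b using Fin.lastCases with
          | last =>
            simp only [Fin.snoc_last, Fin.snoc_castSucc] at h
            exact absurd h (Fin.castSucc_lt_last _).ne
          | cast b => simpa using h)))

lemma vertex_liftCell (hN : 0 < N) (s : Cell m N) (a : Fin (m + 1)) :
    vertex (liftCell hN s) a.castSucc = Fin.snoc (α := fun _ => ℕ) (vertex s a) 0 := by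
  funext i
  induction i using Fin.lastCases with
  | last =>
    have := a.isLt
    simp only [vertex, liftCell, Equiv.ofBijective_apply, Fin.snoc_last, Fin.val_last,
      Fin.val_castSucc]
    rw [if_neg (by omega)]
  | cast i => simp [vertex, liftCell]

lemma card_side {r : (Fin (m + 1) → ℕ) → ℕ} (hN : 0 < N) (hr : Admissible (m + 1) N r) :
    ((doors N r).filter IsSide).card =
      (univ.filter fun s : Cell m N =>
        labels (fun x => r (Fin.snoc (α := fun _ => ℕ) x 0)) s = range (m + 1)).card := by
  have himage : ∀ s : Cell m N, (univ.erase (Fin.last (m + 1))).image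
      (fun a => r (vertex (liftCell hN s) a)) =
      labels (fun x => r (Fin.snoc (α := fun _ => ℕ) x 0)) s := by
    intro s
    ext x
    simp only [labels, mem_image, mem_erase, mem_univ, and_true, true_and]
    constructor
    · rintro ⟨a, ha, rfl⟩
      obtain ⟨b, rfl⟩ := Fin.exists_castSucc_eq.2 ha
      exact ⟨b, by rw [vertex_liftCell]⟩
    · rintro ⟨b, rfl⟩
      exact ⟨b.castSucc, (Fin.castSucc_lt_last b).ne, by rw [vertex_liftCell]⟩
  symm
  refine card_bij (fun s _ => (liftCell hN s, Fin.last (m + 1))) ?_ ?_ ?_
  · intro s hs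
    simp only [mem_filter, mem_univ, true_and, doors] at hs ⊢
    refine ⟨(himage s).trans hs, Or.inr ⟨rfl, ?_⟩⟩
    have : lastCoord (liftCell hN s) = Fin.last m := by
      rw [lastCoord, Equiv.symm_apply_eq]
      simp [liftCell]
    rw [this]
    simp [liftCell]
  · intro s _ t _ h
    have h' := (Prod.ext_iff.1 h).1
    refine Prod.ext (funext fun i => ?_) (Equiv.ext fun i => ?_)
    · have := congrArg (fun u : Cell (m + 1) N => u.1 i.castSucc) h'
      simpa [liftCell] using this
    · have := congrArg (fun u : Cell (m + 1) N => u.2 i.castSucc) h'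
      simpa [liftCell] using this
  · rintro ⟨⟨q, ρ⟩, j⟩ hp
    simp only [mem_filter, mem_univ, true_and, doors] at hp
    obtain ⟨hdoor, hside⟩ := hp
    rcases hside with ⟨rfl, hq⟩ | ⟨rfl, hq⟩
    · exfalso
      obtain ⟨a, ha, hra⟩ := mem_image.1 (show (firstCoord (q, ρ)).val ∈
        (univ.erase 0).image (fun a => r (vertex (q, ρ) a)) by
          rw [hdoor]; exact mem_range.2 (Fin.isLt _))
      refine hr.ne_of_top _ (firstCoord (q, ρ)) (fun k => vertex_le _ a k) ?_ hra
      have ha' : a.val ≠ 0 := fun e => (mem_erase.1 ha).1 (Fin.ext (by simpa using e))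
      have h0 : (ρ (firstCoord (q, ρ))).val = 0 := by simp [firstCoord]
      simp only [vertex, h0, Nat.pos_of_ne_zero ha', if_true]
      exact hq
    · have hρ : ρ (Fin.last m) = Fin.last m := by
        obtain ⟨a, ha, hra⟩ := mem_image.1 (show m ∈
          (univ.erase (Fin.last (m + 1))).image (fun a => r (vertex (q, ρ) a)) by
            rw [hdoor]; simp)
        have ha' : a.val < m + 1 := Fin.val_lt_last (mem_erase.1 ha).1
        have h0 : vertex (q, ρ) a (lastCoord (q, ρ)) = 0 := by
          have h1 : (ρ (lastCoord (q, ρ))).val = m := by simp [lastCoord]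
          simp only [vertex, h1]
          rw [if_neg (by omega), Nat.add_zero]
          exact hq
        have h2 := hr.le_of_zero _ (lastCoord (q, ρ)) (fun k => vertex_le _ a k) h0
        rw [hra] at h2
        have hlc : lastCoord (q, ρ) = Fin.last m :=
          Fin.ext (le_antisymm (Nat.lt_succ_iff.1 (Fin.isLt _)) h2)
        have h3 : ρ (lastCoord (q, ρ)) = Fin.last m := ρ.apply_symm_apply _
        rwa [hlc] at h3
      have hcast : ∀ i : Fin m, ρ i.castSucc ≠ Fin.last m := fun i e =>
        (Fin.castSucc_lt_last i).ne (ρ.injective (e.trans hρ.symm))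
      let σ : Equiv.Perm (Fin m) :=
        Equiv.ofBijective (fun i => (ρ i.castSucc).castPred (hcast i))
          (Finite.injective_iff_bijective.1 fun a b h =>
            Fin.castSucc_injective _ (ρ.injective (Fin.castPred_inj.1 h)))
      have hlast : (q (Fin.last m)).val = 0 := by
        have : lastCoord (q, ρ) = Fin.last m := by
          rw [lastCoord, Equiv.symm_apply_eq]; exact hρ.symm
        rwa [this] at hq
      have hlift : liftCell hN (q ∘ Fin.castSucc, σ) = (q, ρ) := by
        refine Prod.ext (funext fun i => ?_) (Equiv.ext fun i => ?_)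
        · induction i using Fin.lastCases with
          | last => exact Fin.ext (by simp [liftCell, hlast])
          | cast i => simp [liftCell]
        · induction i using Fin.lastCases with
          | last => simp [liftCell, hρ]
          | cast i => simp [liftCell, σ]
      refine ⟨(q ∘ Fin.castSucc, σ), ?_, by rw [hlift]⟩
      simp only [mem_filter, mem_univ, true_and]
      rw [← himage, hlift, hdoor]

lemma odd_doors_iff_side {r : (Fin (m + 1) → ℕ) → ℕ} :
    Odd (doors N r).card ↔ Odd ((doors N r).filter IsSide).card := by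
  rw [← card_filter_add_card_filter_not (s := doors N r) IsSide]
  have heven : Even ((doors N r).filter fun p => ¬ IsSide p).card := by
    have : (((doors N r).filter fun p => ¬ IsSide p).card : ZMod 2) = 0 := by
      rw [card_eq_sum_ones, Nat.cast_sum]
      refine sum_involution (fun p _ => flip p) (fun p _ => by simp only [Nat.cast_one]; rfl)
        (fun p hp _ => ?_) (fun p hp => ?_) (fun p hp => ?_)
      · obtain ⟨h1, h2⟩ := mem_filter.1 hp
        exact (flip_spec h1 h2).2.1
      · obtain ⟨h1, h2⟩ := mem_filter.1 hp
        exact mem_filter.2 (flip_spec h1 h2).1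
      · obtain ⟨h1, h2⟩ := mem_filter.1 hp
        exact (flip_spec h1 h2).2.2
    exact ZMod.natCast_eq_zero_iff_even.1 this
  exact ⟨fun h => (Nat.odd_add.1 h).2 heven, fun h => h.add_even heven⟩

end Step

/-- **Sperner's lemma**: an admissible labelling has an odd number of rainbow simplices. -/
theorem odd_rainbow (hN : 0 < N) : ∀ (n : ℕ) (r : (Fin n → ℕ) → ℕ), Admissible n N r →
    Odd (univ.filter fun s : Cell n N => labels r s = range (n + 1)).card
  | 0, r, hr => by
    have : (univ.filter fun s : Cell 0 N => labels r s = range (0 + 1)) = univ := by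
      refine filter_eq_self.2 fun s _ => ?_
      ext x
      have := hr.le_dim (vertex s 0) fun i => i.elim0
      simp [labels, Fin.eq_zero]
      omega
    rw [this]
    simp
  | m + 1, r, hr => by
    rw [rainbow_parity hr, odd_doors_iff_side, card_side hN hr]
    refine odd_rainbow hN m _ ⟨fun x hx => ?_, fun x i hx h0 => ?_, fun x i hx htop => ?_⟩
    all_goals
      have hle : ∀ k, (Fin.snoc (α := fun _ => ℕ) x 0 : Fin (m + 1) → ℕ) k ≤ N := by
        intro k
        induction k using Fin.lastCases with
        | last => simp
        | cast k => simpa using hx k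
    · simpa using hr.le_of_zero _ (Fin.last m) hle (by simp)
    · simpa using hr.le_of_zero _ i.castSucc hle (by simpa using h0)
    · simpa using hr.ne_of_top _ i.castSucc hle (by simpa using htop)

end FA.SpernerLemma
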